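/-
S36lib / KillInterface36 (helper3).  INTERFACE between the J-level side of S36 (project (C36):
"the `I_q`-invariants of the `q`-new part of `J₀(N)[p^∞]` are bounded when `q² ∥ N`" + the Hecke
killer of brick R2) and the Galois side (`S36lib/Gal`, `S36lib/S36Of`).  Same shape as lead's
`S35lib.FrobKillTors` (`S35lib/KillInterface.lean`), whose `heckeEval` / `coeffEval` are reused:
for a prime `q` with `q² ∥ N`, `q ≠ p`, some NONCOMMUTATIVE integer polynomial `P` in the Hecke
operators which does not vanish at the eigensystem of `g`, and some integer `c ≠ 0`, satisfy: for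
every valuation ring `A` of `ℚ̄` over `q` and every `x ∈ J₀(N)[p^k]` fixed by the inertia group
`I_A`,  `c • P(T) x = 0`.
-/
import Fermat.Agent.S35lib.KillInterface

set_option autoImplicit false

noncomputable section

namespace Fermat.Agent.S36lib

open ModularCurve Fermat.Agent.S29lib Fermat.Agent.S35lib

/-- `ℚ̄` -/
local notation "Qb" => AlgebraicClosure ℚ
/-- `G_ℚ` -/
local notation "GQ" => (AlgebraicClosure ℚ ≃ₐ[ℚ] AlgebraicClosure ℚ)

/-- the killed inertia invariants at ONE prime `q`. -/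
def InertiaKillAt (N p q : ℕ) [NeZero N] (g : CuspForm (CongruenceSubgroup.Gamma0 N) 2) : Prop :=
  ∃ (c : ℤ) (P : FreeAlgebra ℤ Nat.Primes), c ≠ 0 ∧ coeffEval g P ≠ 0 ∧
    ∀ TJ : Nat.Primes → (JZero N →+ JZero N),
      (∀ ℓ : Nat.Primes, ¬ (ℓ : ℕ) ∣ N → ∀ x : JZero N, TJ ℓ x = heckeOperatorBar N ℓ x) →
      ∀ A : ValuationSubring Qb, A.LiesOverPrime q →
        ∀ (k : ℕ) (x : JZero N), x ∈ Tors N (p ^ k) →
          (∀ σ ∈ A.inertiaSubgroupIn ℚ, σ • x = x) → c • heckeEval TJ P x = 0

/-- **(IKILL)**: the killed inertia invariants at every prime `q` with `q² ∥ N`, `q ≠ p`. -/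
def InertiaKillTors (N p : ℕ) [NeZero N] (g : CuspForm (CongruenceSubgroup.Gamma0 N) 2) : Prop :=
  ∀ q : ℕ, q.Prime → q ≠ p → N.factorization q = 2 → InertiaKillAt N p q g

end Fermat.Agent.S36lib
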