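/-
S36lib / S36Of (helper3): **S36 from the J-level interface `InertiaKillTors`**.
Copy of lead's `S35lib.s35_of_frobKill` (`S35lib/R3/S30FN.lean`) with
* the `_in` bricks (`S36lib/Gal/{Lattice36,Galois36}`: the eigenlattice of `g` itself, with the
  inertia clause: no nonzero vector fixed by `I_A`, `A ∣ q`, `q² ∥ N`, `q ≠ p`);
* block X (`S36lib/Gal/AdicX36`): the hypothesis `hres` of S36 (every attached representation is
  residually absolutely irreducible) excludes the commutative case, so the piece is good and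
  `ρ = toLin' ∘ M` over `O = O_{K₁}` itself;
* Kolchin (`S36lib/Gal/Kolchin`): unipotent inertia would fix a nonzero vector.
-/
import Fermat.Agent.S29lib.Z.Final
import Fermat.Agent.S29lib.S30.Assemble
import Fermat.Agent.S35lib.R3.EigenG
import Fermat.Agent.S36lib.Gal.Galois36
import Fermat.Agent.S36lib.Gal.AdicX36

set_option autoImplicit false
set_option linter.style.haveILetI false
set_option linter.unusedSectionVars false

noncomputable section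

namespace Fermat.Agent.S36lib

open Polynomial ModularCurve Fermat.Agent.S29lib Fermat.Agent.S29lib.X
  Fermat.Agent.ExtVan.InertiaLift Fermat.Agent.S29lib.Dvr Fermat.Agent.S29lib.S30
  Fermat.Agent.S35lib

/-- **S36 from `InertiaKillTors`.** -/
theorem s36_of_inertiaKill (p : ℕ) [Fact p.Prime] (N : ℕ) [NeZero N]
    {g : CuspForm (CongruenceSubgroup.Gamma0 N) 2} (hg : g.IsNormalizedEigenform)
    (hK : InertiaKillTors N p g) (S : Finset ℕ)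
    (hpS : p ∈ S) (hNS : ∀ q : ℕ, q.Prime → q ∣ N → q ∈ S)
    (𝒪' : Type) [CommRing 𝒪'] [IsDomain 𝒪'] [IsDiscreteValuationRing 𝒪']
    [IsAdicComplete (IsLocalRing.maximalIdeal 𝒪') 𝒪'] [Finite (IsLocalRing.ResidueField 𝒪')]
    [CharZero 𝒪'] (hp𝒪' : (p : 𝒪') ∈ IsLocalRing.maximalIdeal 𝒪')
    (chig : CuspForm.heckeAlgebra N 2 (↑S : Set ℕ) →+* ℂ)
    (hchig : ∀ (ℓ : ℕ) (hℓ : ℓ.Prime) (hℓN : ¬ ℓ ∣ N) (hℓS : ℓ ∉ (↑S : Set ℕ)),
      chig (CuspForm.heckeAlgebra.T hℓ hℓN hℓS) = ModularFormClass.qCoeff g ℓ)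
    (iota : chig.range →+* 𝒪')
    (hres : ∀ (𝒪'' : Type) [CommRing 𝒪''] [IsDomain 𝒪''] [IsDiscreteValuationRing 𝒪'']
      [IsAdicComplete (IsLocalRing.maximalIdeal 𝒪'') 𝒪''] [Finite (IsLocalRing.ResidueField 𝒪'')]
      [CharZero 𝒪''] [Algebra 𝒪' 𝒪''] [Module.Finite 𝒪' 𝒪''] [IsLocalHom (algebraMap 𝒪' 𝒪'')],
      Function.Injective (algebraMap 𝒪' 𝒪'') → ∀ (ρ : GaloisRepAdic 𝒪''),
      (∀ (ℓ : ℕ) (hℓ : ℓ.Prime) (_ : ℓ ≠ p) (hℓN : ¬ ℓ ∣ N) (hℓS : ℓ ∉ (↑S : Set ℕ)),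
        ∀ A : ValuationSubring (AlgebraicClosure ℚ), A.LiesOverPrime ℓ →
          ∀ σ : AlgebraicClosure ℚ ≃ₐ[ℚ] AlgebraicClosure ℚ, A.IsFrobeniusAt σ ℓ →
            LinearMap.charpoly (ρ.ρ σ) =
              X ^ 2 - C (algebraMap 𝒪' 𝒪'' ((iota.comp chig.rangeRestrict)
                (CuspForm.heckeAlgebra.T hℓ hℓN hℓS))) * X + C ((ℓ : 𝒪'')))
      → ρ.residual.IsAbsolutelyIrreducible) :
    ∃ (𝒪'' : Type) (_ : CommRing 𝒪'') (_ : IsDomain 𝒪'') (_ : IsDiscreteValuationRing 𝒪'')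
      (_ : IsAdicComplete (IsLocalRing.maximalIdeal 𝒪'') 𝒪'')
      (_ : Finite (IsLocalRing.ResidueField 𝒪'')) (_ : CharZero 𝒪'')
      (_ : Algebra 𝒪' 𝒪'') (_ : Module.Finite 𝒪' 𝒪'') (_ : IsLocalHom (algebraMap 𝒪' 𝒪'')),
    Function.Injective (algebraMap 𝒪' 𝒪'') ∧
    ∃ ρ : GaloisRepAdic 𝒪'',
      (∀ (ℓ : ℕ) (hℓ : ℓ.Prime) (hℓN : ¬ ℓ ∣ N) (hℓS : ℓ ∉ (↑S : Set ℕ)),
        ∀ A : ValuationSubring (AlgebraicClosure ℚ), A.LiesOverPrime ℓ →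
          ∀ σ : AlgebraicClosure ℚ ≃ₐ[ℚ] AlgebraicClosure ℚ, A.IsFrobeniusAt σ ℓ →
            LinearMap.charpoly (ρ.ρ σ) =
              X ^ 2 - C (algebraMap 𝒪' 𝒪'' ((iota.comp chig.rangeRestrict)
                (CuspForm.heckeAlgebra.T hℓ hℓN hℓS))) * X + C ((ℓ : 𝒪''))) ∧
      (∀ q : ℕ, q.Prime → q ≠ p → N.factorization q = 2 → ¬ ρ.IsUnipotentOnInertiaAt q) := by
  classical
  have hp : p.Prime := Fact.out
  -- comparison data, eigen input, local data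
  obtain ⟨Cd, hCg⟩ := Z.compStatement N p hp
  have hL : LocalData N p := GH.localData_of_comparisonData Cd hp.ne_zero
  obtain ⟨EI⟩ := hCg g hg
  -- eigen data for `g` itself
  obtain ⟨K₁, hfd, a₁, hfinL, ha₁, hkill₁⟩ :=
    exists_eigen_data_of_eigenform Cd hg EI (↑S : Set ℕ) hNS 𝒪' chig hchig iota
  haveI := hfd
  -- the DVR `O1`
  obtain ⟨_, _, _, _, _, hfin1, hloc1, hinj1⟩ := exists_dvr_structure 𝒪' (FractionRing 𝒪') K₁
  have hpO1 : (p : OL 𝒪' K₁) ∈ IsLocalRing.maximalIdeal (OL 𝒪' K₁) := by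
    have h1 : (p : OL 𝒪' K₁) = algebraMap 𝒪' (OL 𝒪' K₁) (p : 𝒪') := (map_natCast _ p).symm
    rw [h1]
    exact map_nonunit (algebraMap 𝒪' (OL 𝒪' K₁)) _ hp𝒪'
  -- brick C: the matrices
  obtain ⟨M, hM1, hM2, hM3, hM4⟩ := exists_adic_matrix_in Cd hL hK (OL 𝒪' K₁) hpO1 a₁ hkill₁
    (algebraMap (OL 𝒪' K₁) K₁) Subtype.val_injective hfinL
  let P : AdicPiece N p (OL 𝒪' K₁) a₁ := ⟨M, hM1, hM2, hM3⟩
  have hPI : IsInertiaFreePiece P := hM4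
  -- block X: the piece is good
  have hgood : P.IsGood := by
    refine isGood_of_forall_absIrr (NeZero.ne N) (OL 𝒪' K₁) hpO1 a₁ P ?_
    intro O₂ _ _ _ _ _ _ _ _ _ hinj2 ρ hatt
    letI : Algebra 𝒪' O₂ :=
      ((algebraMap (OL 𝒪' K₁) O₂).comp (algebraMap 𝒪' (OL 𝒪' K₁))).toAlgebra
    haveI : IsScalarTower 𝒪' (OL 𝒪' K₁) O₂ := IsScalarTower.of_algebraMap_eq fun _ => rfl
    haveI : Module.Finite 𝒪' O₂ := Module.Finite.trans (OL 𝒪' K₁) O₂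
    haveI : IsLocalHom (algebraMap 𝒪' O₂) :=
      RingHom.isLocalHom_comp (algebraMap (OL 𝒪' K₁) O₂) (algebraMap 𝒪' (OL 𝒪' K₁))
    refine hres O₂ (hinj2.comp hinj1) ρ ?_
    intro ℓ hℓ hℓp hℓN hℓS A hA σ hσ
    rw [hatt.1 ℓ hℓ (not_dvd_mul_of_prime hℓ hp hℓN hℓp) A hA σ hσ]
    simp only
    rw [ha₁ ℓ hℓ hℓN hℓS]
    rfl
  have hatt := P.isAttachedAdic_of_isGood hgood
  refine ⟨OL 𝒪' K₁, inferInstance, inferInstance, inferInstance, inferInstance, inferInstance,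
    inferInstance, inferInstance, hfin1, hloc1, hinj1, P.toRep, ?_, ?_⟩
  · intro ℓ hℓ hℓN hℓS A hA σ hσ
    have hℓp : ℓ ≠ p := by
      rintro rfl
      exact hℓS (Finset.mem_coe.mpr hpS)
    rw [hatt.1 ℓ hℓ (not_dvd_mul_of_prime hℓ hp hℓN hℓp) A hA σ hσ, ha₁ ℓ hℓ hℓN hℓS]
    rfl
  · intro q hq hqp hqN
    exact not_isUnipotentOnInertiaAt_of_inertiaFree P hPI hq hqp hqN

end Fermat.Agent.S36lib
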